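import Fermat.Agent.MUL.F4.UC.Cup
import Fermat.Agent.MUL.Orig.F4.Hull.Basic

section MergeWrap_F4_UC_KLevel -- from F4/UC/KLevel.lean

/-!
# F4 / UC : from formation-level statements on `C` to `K`-level statements (seat K-level)

For a universal-coefficient datum `D : UCData p K C I Q` with `I` smooth:

* `UC.H90sm 𝓤 C`   : `Z¹(C) = B¹(C)` (Hilbert 90, smooth form);
* `UC.F1sm p 𝓤 C`  : any two `p`-torsion classes of `H²(C)` are `ℤ`-dependent mod `p`;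
* `UC.F3sm p 𝓤 C`  : for every nonzero character `χ` there is `x ∈ C^G` with `x ∪ δχ ≠ 0`;
* `UC.KF1 𝓤 K`     : any two classes of `HH²(K)` are linearly dependent (`dim HH²(K) ≤ 1`);
* `UC.KF3 𝓤 K`     : for every nonzero character `χ` there is `z ∈ ZZ¹(K)` with `z ∪ χ ≁ 0`.

`UCData.kF1 : H90sm → F1sm → KF1`,  `UCData.kF3 : F3sm → KF3`.
-/

set_option autoImplicit false
set_option linter.unusedSectionVars false

open CategoryTheory groupCohomology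

namespace Fermat.Agent.F4

variable {G : Type} [Group G]

namespace UC

/-- Hilbert 90, smooth form: every smooth 1-cocycle of `C` is a coboundary. -/
def H90sm (𝓤 : Levels G) (C : Rep.{0} ℤ G) : Prop :=
  ∀ c : G → C, c ∈ Z1 𝓤 C → c ∈ B1 C

/-- Any two smooth 2-cocycles of `C` whose classes are killed by `p` are dependent modulo
coboundaries, with integer coefficients not both divisible by `p`. -/
def F1sm (p : ℕ) (𝓤 : Levels G) (C : Rep.{0} ℤ G) : Prop :=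
  ∀ w₁ w₂ : G × G → C, w₁ ∈ Z2 𝓤 C → w₂ ∈ Z2 𝓤 C →
    (fun q => (p : ℤ) • w₁ q) ∈ B2 𝓤 C → (fun q => (p : ℤ) • w₂ q) ∈ B2 𝓤 C →
    ∃ x y : ℤ, (¬ (p : ℤ) ∣ x ∨ ¬ (p : ℤ) ∣ y) ∧ (fun q => x • w₁ q + y • w₂ q) ∈ B2 𝓤 C

/-- For every nonzero smooth character `χ : G → ZMod p` there is an invariant `x` whose carry
cochain `x ∪ δχ` is not a smooth coboundary. -/
def F3sm (p : ℕ) (𝓤 : Levels G) (C : Rep.{0} ℤ G) : Prop :=
  ∀ χ : G → ZMod p, (∀ g h, χ (g * h) = χ g + χ h) → IsLC₁ 𝓤 χ → χ ≠ 0 →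
    ∃ x : C, (∀ g, C.ρ g x = x) ∧ carryCo C χ x ∉ B2 𝓤 C

/-- Any two classes of `HH²(K)` are linearly dependent. -/
def KF1 {p : ℕ} (𝓤 : Levels G) (K : Cx (ZMod p) G) : Prop :=
  ∀ z₁ z₂ : T2 K, z₁ ∈ ZZ2 𝓤 K → z₂ ∈ ZZ2 𝓤 K →
    ∃ x y : ZMod p, (x ≠ 0 ∨ y ≠ 0) ∧ x • z₁ + y • z₂ ∈ BB2 𝓤 K

/-- For every nonzero smooth character `χ` there is a 1-cocycle `z` of `K` with `z ∪ χ` not a
coboundary. -/
def KF3 {p : ℕ} (𝓤 : Levels G) (K : Cx (ZMod p) G) : Prop :=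
  ∀ χ : G → ZMod p, (∀ g h, χ (g * h) = χ g + χ h) → IsLC₁ 𝓤 χ → χ ≠ 0 →
    ∃ z : T1 K, z ∈ ZZ1 𝓤 K ∧ cupχ z χ ∉ BB2 𝓤 K

end UC

namespace UCData

variable {p : ℕ} {K : Cx (ZMod p) G} {C I Q : Rep.{0} ℤ G} (D : UCData p K C I Q)
  {𝓤 : Levels G} (hI : IsSmooth 𝓤 I)

include D hI

/-- **K-F1** from Hilbert 90 and the formation-level dependency `F1sm`. -/
theorem kF1 [NeZero p] (h90 : UC.H90sm 𝓤 C) (hF1 : UC.F1sm p 𝓤 C) : UC.KF1 𝓤 K := by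
  intro z₁ z₂ hz₁ hz₂
  obtain ⟨w₁, hw₁, hrel₁⟩ := Rel2.exists D hI hz₁
  obtain ⟨w₂, hw₂, hrel₂⟩ := Rel2.exists D hI hz₂
  obtain ⟨x, y, hxy, hB⟩ := hF1 w₁ w₂ hw₁ hw₂ (hrel₁.p_smul_mem_B2 hI hz₁)
    (hrel₂.p_smul_mem_B2 hI hz₂)
  refine ⟨(x : ZMod p), (y : ZMod p), ?_, ?_⟩
  · rcases hxy with h | h
    · exact Or.inl fun h0 => h ((ZMod.intCast_zmod_eq_zero_iff_dvd x p).1 h0)
    · exact Or.inr fun h0 => h ((ZMod.intCast_zmod_eq_zero_iff_dvd y p).1 h0)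
  · have hrel : D.Rel2 𝓤 (x • z₁ + y • z₂) (x • w₁ + y • w₂) :=
      (hrel₁.zsmul x).add (hrel₂.zsmul y)
    have e : ((x : ZMod p) • z₁ + (y : ZMod p) • z₂ : T2 K) = x • z₁ + y • z₂ := by
      rw [Int.cast_smul_eq_zsmul, Int.cast_smul_eq_zsmul]
    rw [e]
    exact D.mem_BB2_of_rel2 hI h90 hrel hB

/-- **K-F3** from the formation-level non-vanishing `F3sm`. -/
theorem kF3 [NeZero p] (hF3 : UC.F3sm p 𝓤 C) : UC.KF3 𝓤 K := by
  intro χ hχ hχLC hχ0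
  obtain ⟨x, hx, hcarry⟩ := hF3 χ hχ hχLC hχ0
  obtain ⟨z, hz, hrel⟩ := Rel1α.exists D hI hx
  refine ⟨z, hz, fun hBB => hcarry ?_⟩
  have h := Rel2.mem_B2 hI (rel2_cupχ hrel hχ hχLC) hBB
  have h' := Submodule.neg_mem _ h
  have e : (-fun q => -UC.carryCo C χ x q) = UC.carryCo C χ x := by
    funext q; simp
  rwa [e] at h'

/-- Under Hilbert 90, every class of `HH¹(K)` comes from `C^G`: for every cocycle `z` there
is an invariant `x` and a cocycle `z'` with `Rel1α x z'` and `z - z'` a coboundary. -/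
theorem exists_rel1α_of_H90 (h90 : UC.H90sm 𝓤 C) {z : T1 K} (hz : z ∈ ZZ1 𝓤 K) :
    ∃ x : C, (∀ g, C.ρ g x = x) ∧ D.Rel1α x z := by
  obtain ⟨c, hc, hrel⟩ := Rel1.exists D hI hz
  exact hrel.ker (h90 c hc)

end UCData

end Fermat.Agent.F4
end MergeWrap_F4_UC_KLevel
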